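/-
Project MW (S17), cell [DIV2], leaf [TRANS] (helper23), part 2: BASE CHANGE AND DEGREES.
Prefix `mw_d2t_`.

`K₀ ⊆ K` fields of characteristic zero, `F_ℚ ⊆ ℚ((q))` a field, `F₀ = laurentBaseChange K₀ F_ℚ`,
`F = laurentBaseChange K F_ℚ`, `bc = mw_d2_bc F_ℚ : F₀ → F` (coefficientwise), `y₀ ∈ F₀`, `y = bc y₀`.

* `mw_d2t_bc_mem_adjoin`        : `bc (K₀(y₀)) ⊆ K(y)`;  `mw_d2t_bcAdj : K₀(y₀) →+* K(y)`;
* `mw_d2t_linearIndependent_bc` : (`y₀` transcendental over `K₀`) a `K₀(y₀)`-linearly independent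
                                  family of `F₀` stays linearly independent over `K(y)` (linear
                                  disjointness, by functionals `K → K₀` applied coefficientwise);
* `mw_d2t_finite_of_bc`         : `F / K(y)` finite ⟹ `F₀ / K₀(y₀)` finite;
* `mw_d2t_finrank_le_of_bc`     : `[F₀ : K₀(y₀)] ≤ [F : K(y)]`;
* `mw_d2t_finrank_bc_le`        : `[F : K(y)] ≤ [F₀ : K₀(y₀)]` (`F₀ / K₀(y₀)` finite).
-/
import Mathlib
import Fermat.Agent.MW.Div2.Defs

set_option autoImplicit false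
set_option linter.unusedSectionVars false

noncomputable section

namespace Fermat.Agent.MW

open AlgebraicCurve ModularCurve Fermat.Agent.JT3 IntermediateField Polynomial

/-! ### functionals applied to polynomials -/

section lmap

variable {K₀ K : Type*} [Field K₀] [Field K] [Algebra K₀ K]

/-- a `K₀`-linear functional applied to the coefficients of a polynomial. -/
def mw_d2t_lmap (l : K →ₗ[K₀] K₀) (p : K[X]) : K₀[X] :=
  ∑ j ∈ Finset.range (p.natDegree + 1), monomial j (l (p.coeff j))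

theorem mw_d2t_lmap_coeff (l : K →ₗ[K₀] K₀) (p : K[X]) (j : ℕ) :
    (mw_d2t_lmap l p).coeff j = l (p.coeff j) := by
  rw [mw_d2t_lmap, finsetSum_coeff]
  simp only [coeff_monomial]
  rw [Finset.sum_ite_eq' (Finset.range (p.natDegree + 1)) j]
  split_ifs with h
  · rfl
  · rw [Finset.mem_range, not_lt] at h
    rw [coeff_eq_zero_of_natDegree_lt (by omega), map_zero]

theorem mw_d2t_lmap_natDegree_lt (l : K →ₗ[K₀] K₀) (p : K[X]) :
    (mw_d2t_lmap l p).natDegree < p.natDegree + 1 := by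
  rw [Nat.lt_succ_iff, natDegree_le_iff_coeff_eq_zero]
  intro j hj
  rw [mw_d2t_lmap_coeff, coeff_eq_zero_of_natDegree_lt hj, map_zero]

/-- the core computation: a functional applied to a polynomial relation. -/
theorem mw_d2t_funcMap_relation {ι : Type*} (s : Finset ι) (p : ι → K[X])
    (Y₀ : LaurentSeries K₀) (e : ι → LaurentSeries K₀)
    (h : ∑ i ∈ s, aeval (coeffMap (algebraMap K₀ K) Y₀) (p i) * coeffMap (algebraMap K₀ K) (e i)
      = 0) (l : K →ₗ[K₀] K₀) :
    ∑ i ∈ s, aeval Y₀ (mw_d2t_lmap l (p i)) * e i = 0 := by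
  have h1 := congrArg (gd_funcMapHom l) h
  rw [map_zero, map_sum] at h1
  rw [← h1]
  refine Finset.sum_congr rfl fun i _ => ?_
  rw [aeval_eq_sum_range' (mw_d2t_lmap_natDegree_lt l (p i)),
    aeval_eq_sum_range' (Nat.lt_succ_self (p i).natDegree), Finset.sum_mul, Finset.sum_mul,
    map_sum]
  refine Finset.sum_congr rfl fun j _ => ?_
  have hC : ∀ (c : K), algebraMap K (LaurentSeries K) c = HahnSeries.C c := fun c => by
    rw [algebraMap_laurentSeries_eq_single]; rfl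
  have hC₀ : ∀ (c : K₀), algebraMap K₀ (LaurentSeries K₀) c = HahnSeries.C c := fun c => by
    rw [algebraMap_laurentSeries_eq_single]; rfl
  rw [gd_funcMapHom_apply, mw_d2t_lmap_coeff, ← map_pow, Algebra.smul_def, Algebra.smul_def,
    hC, hC₀, mul_assoc, mul_assoc, ← map_mul, gd_funcMap_C_mul]

end lmap

section bc

variable {K₀ K : Type} [Field K₀] [Field K] [Algebra K₀ K] [Algebra ℚ K₀] [Algebra ℚ K]
  (F_ℚ : IntermediateField ℚ (LaurentSeries ℚ))

/-- `bc` maps `K₀(y₀)` into `K(bc y₀)`. -/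
theorem mw_d2t_bc_mem_adjoin (y₀ : laurentBaseChange K₀ F_ℚ) {r : laurentBaseChange K₀ F_ℚ}
    (hr : r ∈ K₀⟮y₀⟯) : mw_d2_bc (K := K) F_ℚ r ∈ K⟮mw_d2_bc (K := K) F_ℚ y₀⟯ := by
  induction hr using IntermediateField.adjoin_induction with
  | mem x hx =>
      rw [Set.mem_singleton_iff] at hx
      rw [hx]
      exact IntermediateField.mem_adjoin_simple_self K _
  | algebraMap c =>
      rw [mw_d2_bc_algebraMap]
      exact IntermediateField.algebraMap_mem _ _
  | add x z _ _ hx hz => rw [map_add]; exact add_mem hx hz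
  | inv x _ hx => rw [map_inv₀]; exact inv_mem hx
  | mul x z _ _ hx hz => rw [map_mul]; exact mul_mem hx hz

/-- the restriction `K₀(y₀) → K(bc y₀)` of `bc`. -/
def mw_d2t_bcAdj (y₀ : laurentBaseChange K₀ F_ℚ) :
    ↥K₀⟮y₀⟯ →+* ↥K⟮mw_d2_bc (K := K) F_ℚ y₀⟯ :=
  ((mw_d2_bc (K := K) F_ℚ).comp (algebraMap ↥K₀⟮y₀⟯ (laurentBaseChange K₀ F_ℚ))).codRestrict
    K⟮mw_d2_bc (K := K) F_ℚ y₀⟯ fun r => mw_d2t_bc_mem_adjoin F_ℚ y₀ r.2

theorem mw_d2t_bcAdj_coe (y₀ : laurentBaseChange K₀ F_ℚ) (r : ↥K₀⟮y₀⟯) :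
    algebraMap ↥K⟮mw_d2_bc (K := K) F_ℚ y₀⟯ (laurentBaseChange K F_ℚ) (mw_d2t_bcAdj F_ℚ y₀ r)
      = mw_d2_bc (K := K) F_ℚ (algebraMap ↥K₀⟮y₀⟯ (laurentBaseChange K₀ F_ℚ) r) := rfl

/-- coercion to Laurent series commutes with `aeval` -/
theorem mw_d2t_coe_aeval {R : Type*} [Field R] (E : IntermediateField R (LaurentSeries R)) (z : E)
    (p : R[X]) : ((aeval z p : E) : LaurentSeries R) = aeval (z : LaurentSeries R) p := by
  have := aeval_algebraMap_apply (A := E) (LaurentSeries R) z p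
  exact this.symm

open scoped IntermediateField.algebraAdjoinAdjoin in
/-- linear independence over `K[y]` implies linear independence over `K(y)`. -/
theorem mw_d2t_linearIndependent_adjoin {k E : Type*} [Field k] [Field E] [Algebra k E] (y : E)
    {ι : Type*} {v : ι → E} (h : LinearIndependent ↥(Algebra.adjoin k ({y} : Set E)) v) :
    LinearIndependent ↥k⟮y⟯ v :=
  (LinearIndependent.iff_fractionRing ↥(Algebra.adjoin k ({y} : Set E)) ↥k⟮y⟯).1 h

set_option synthInstance.maxHeartbeats 400000 in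
/-- **linear disjointness**: a family of `F₀` which is linearly independent over `K₀(y₀)` stays
linearly independent over `K(bc y₀)`. -/
theorem mw_d2t_linearIndependent_bc (y₀ : laurentBaseChange K₀ F_ℚ) (hy₀ : Transcendental K₀ y₀)
    {ι : Type*} (e : ι → laurentBaseChange K₀ F_ℚ) (he : LinearIndependent ↥K₀⟮y₀⟯ e) :
    LinearIndependent ↥K⟮mw_d2_bc (K := K) F_ℚ y₀⟯ (fun i => mw_d2_bc (K := K) F_ℚ (e i)) := by
  classical
  set y := mw_d2_bc (K := K) F_ℚ y₀ with hy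
  apply mw_d2t_linearIndependent_adjoin
  rw [linearIndependent_iff']
  intro s g hg i hi
  have hp : ∀ i, ∃ p : K[X], ((g i : Algebra.adjoin K ({y} : Set (laurentBaseChange K F_ℚ))) :
      laurentBaseChange K F_ℚ) = aeval y p := by
    intro i
    have : ((g i : Algebra.adjoin K ({y} : Set (laurentBaseChange K F_ℚ))) :
        laurentBaseChange K F_ℚ) ∈ (aeval (R := K) y).range := by
      rw [← Algebra.adjoin_singleton_eq_range_aeval]
      exact (g i).2
    obtain ⟨p, hp⟩ := this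
    exact ⟨p, hp.symm⟩
  choose p hp using hp
  -- the relation in Laurent series
  have hrel : ∑ i ∈ s, aeval (coeffMap (algebraMap K₀ K) (y₀ : LaurentSeries K₀)) (p i) *
      coeffMap (algebraMap K₀ K) (e i : LaurentSeries K₀) = 0 := by
    have h1 := congrArg (fun z : laurentBaseChange K F_ℚ => (z : LaurentSeries K)) hg
    simp only [AddSubmonoidClass.coe_finsetSum, ZeroMemClass.coe_zero] at h1
    rw [← h1]
    refine Finset.sum_congr rfl fun i _ => ?_
    have h2 : g i • mw_d2_bc (K := K) F_ℚ (e i) =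
        (g i : laurentBaseChange K F_ℚ) * mw_d2_bc (K := K) F_ℚ (e i) := rfl
    rw [h2, hp i, MulMemClass.coe_mul, mw_d2t_coe_aeval, mw_d2_bc_coe, mw_d2_bc_coe]
  -- every functional kills the coefficients
  have hl : ∀ l : K →ₗ[K₀] K₀, ∀ i ∈ s, mw_d2t_lmap l (p i) = 0 := by
    intro l
    have h1 := mw_d2t_funcMap_relation s p (y₀ : LaurentSeries K₀)
      (fun i => (e i : LaurentSeries K₀)) hrel l
    have h2 : ∑ i ∈ s, (aeval (AdjoinSimple.gen K₀ y₀) (mw_d2t_lmap l (p i))) • e i = 0 := by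
      apply Subtype.ext
      simp only [AddSubmonoidClass.coe_finsetSum, ZeroMemClass.coe_zero]
      rw [← h1]
      refine Finset.sum_congr rfl fun i _ => ?_
      have h3 : (aeval (AdjoinSimple.gen K₀ y₀) (mw_d2t_lmap l (p i))) • e i =
          algebraMap ↥K₀⟮y₀⟯ (laurentBaseChange K₀ F_ℚ)
            (aeval (AdjoinSimple.gen K₀ y₀) (mw_d2t_lmap l (p i))) * e i := Algebra.smul_def _ _
      rw [h3, ← aeval_algebraMap_apply, AdjoinSimple.algebraMap_gen, MulMemClass.coe_mul,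
        mw_d2t_coe_aeval]
    intro i hi
    have h3 := linearIndependent_iff'.1 he s _ h2 i hi
    have h4 : aeval y₀ (mw_d2t_lmap l (p i)) = 0 := by
      have := congrArg (algebraMap ↥K₀⟮y₀⟯ (laurentBaseChange K₀ F_ℚ)) h3
      rwa [← aeval_algebraMap_apply, AdjoinSimple.algebraMap_gen, map_zero] at this
    exact (transcendental_iff.1 hy₀) _ h4
  have hpi : p i = 0 := by
    by_contra hne
    obtain ⟨j, hj⟩ : ∃ j, (p i).coeff j ≠ 0 := by
      by_contra hall
      push Not at hall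
      exact hne (Polynomial.ext fun j => by rw [hall j, coeff_zero])
    obtain ⟨l, hl'⟩ := Module.Projective.exists_dual_ne_zero K₀ hj
    have := congrArg (fun q : K₀[X] => q.coeff j) (hl l i hi)
    simp only [mw_d2t_lmap_coeff, coeff_zero] at this
    exact hl' this
  apply Subtype.ext
  rw [hp i, hpi, map_zero]
  rfl

set_option synthInstance.maxHeartbeats 400000 in
/-- `F / K(bc y₀)` finite ⟹ `F₀ / K₀(y₀)` finite, of degree at most `[F : K(bc y₀)]`. -/
theorem mw_d2t_finite_of_bc (y₀ : laurentBaseChange K₀ F_ℚ) (hy₀ : Transcendental K₀ y₀)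
    [FiniteDimensional ↥K⟮mw_d2_bc (K := K) F_ℚ y₀⟯ (laurentBaseChange K F_ℚ)] :
    FiniteDimensional ↥K₀⟮y₀⟯ (laurentBaseChange K₀ F_ℚ) ∧
      Module.finrank ↥K₀⟮y₀⟯ (laurentBaseChange K₀ F_ℚ) ≤
        Module.finrank ↥K⟮mw_d2_bc (K := K) F_ℚ y₀⟯ (laurentBaseChange K F_ℚ) := by
  have hrank : Module.rank ↥K₀⟮y₀⟯ (laurentBaseChange K₀ F_ℚ) ≤
      (Module.finrank ↥K⟮mw_d2_bc (K := K) F_ℚ y₀⟯ (laurentBaseChange K F_ℚ) : ℕ) := by
    apply rank_le
    intro s hs
    have h1 := mw_d2t_linearIndependent_bc (K := K) F_ℚ y₀ hy₀ _ hs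
    have h2 := h1.fintype_card_le_finrank
    simpa using h2
  refine ⟨?_, Module.finrank_le_of_rank_le hrank⟩
  exact Module.rank_lt_aleph0_iff.1 (lt_of_le_of_lt hrank (Cardinal.natCast_lt_aleph0))

/-- the generators of `F` are in the image of `bc`. -/
theorem mw_d2t_gen_eq_bc {w : LaurentSeries ℚ} (hw : w ∈ F_ℚ) :
    (⟨coeffEmb K w, coeffEmb_mem_laurentBaseChange K hw⟩ : laurentBaseChange K F_ℚ) =
      mw_d2_bc (K := K) F_ℚ
        (⟨coeffEmb K₀ w, coeffEmb_mem_laurentBaseChange K₀ hw⟩ : laurentBaseChange K₀ F_ℚ) :=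
  Subtype.ext (gd_coeffMap_coeffEmb (K₀ := K₀) (K := K) w).symm

set_option synthInstance.maxHeartbeats 400000 in
/-- an intermediate field of `F / K(y)` containing `bc F₀` is everything. -/
theorem mw_d2t_eq_top_of_bc_mem (y : laurentBaseChange K F_ℚ)
    (T : IntermediateField ↥K⟮y⟯ (laurentBaseChange K F_ℚ))
    (hT : ∀ e : laurentBaseChange K₀ F_ℚ, mw_d2_bc (K := K) F_ℚ e ∈ T) : T = ⊤ := by
  rw [eq_top_iff]
  rintro ⟨f, hf⟩ -
  have key : ∀ (z : LaurentSeries K) (hz : z ∈ laurentBaseChange K F_ℚ),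
      (⟨z, hz⟩ : laurentBaseChange K F_ℚ) ∈ T := by
    intro z hz
    induction hz using IntermediateField.adjoin_induction with
    | mem z hz =>
        obtain ⟨w, hw, rfl⟩ := hz
        rw [mw_d2t_gen_eq_bc (K₀ := K₀) F_ℚ hw]
        exact hT _
    | algebraMap c =>
        have : (⟨algebraMap K (LaurentSeries K) c, (laurentBaseChange K F_ℚ).algebraMap_mem c⟩ :
            laurentBaseChange K F_ℚ) =
            algebraMap ↥K⟮y⟯ (laurentBaseChange K F_ℚ) (algebraMap K ↥K⟮y⟯ c) := rfl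
        rw [this]
        exact T.algebraMap_mem _
    | add a b ha hb iha ihb =>
        have h := T.add_mem iha ihb
        have e : (⟨a, ha⟩ + ⟨b, hb⟩ : laurentBaseChange K F_ℚ) = ⟨a + b, add_mem ha hb⟩ :=
          Subtype.ext rfl
        rwa [e] at h
    | inv a ha iha =>
        have h := T.inv_mem iha
        have e : (⟨a, ha⟩ : laurentBaseChange K F_ℚ)⁻¹ = ⟨a⁻¹, inv_mem ha⟩ := Subtype.ext rfl
        rwa [e] at h
    | mul a b ha hb iha ihb =>
        have h := T.mul_mem iha ihb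
        have e : (⟨a, ha⟩ * ⟨b, hb⟩ : laurentBaseChange K F_ℚ) = ⟨a * b, mul_mem ha hb⟩ :=
          Subtype.ext rfl
        rwa [e] at h
  exact key f hf

set_option synthInstance.maxHeartbeats 400000 in
set_option maxHeartbeats 800000 in
/-- `[F : K(bc y₀)] ≤ [F₀ : K₀(y₀)]` (characteristic zero, `F₀ / K₀(y₀)` finite). -/
theorem mw_d2t_finrank_bc_le [CharZero K₀] (y₀ : laurentBaseChange K₀ F_ℚ)
    [FiniteDimensional ↥K₀⟮y₀⟯ (laurentBaseChange K₀ F_ℚ)] :
    Module.finrank ↥K⟮mw_d2_bc (K := K) F_ℚ y₀⟯ (laurentBaseChange K F_ℚ) ≤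
      Module.finrank ↥K₀⟮y₀⟯ (laurentBaseChange K₀ F_ℚ) := by
  obtain ⟨u, hu⟩ := Field.exists_primitive_element ↥K₀⟮y₀⟯ (laurentBaseChange K₀ F_ℚ)
  set y := mw_d2_bc (K := K) F_ℚ y₀ with hy
  set φ := mw_d2t_bcAdj (K := K) F_ℚ y₀ with hφ
  have huint : IsIntegral ↥K₀⟮y₀⟯ u := Algebra.IsIntegral.isIntegral u
  -- the image of the minimal polynomial kills `bc u`
  have hmonic : ((minpoly ↥K₀⟮y₀⟯ u).map φ).Monic := (minpoly.monic huint).map φ
  have hroot : aeval (mw_d2_bc (K := K) F_ℚ u) ((minpoly ↥K₀⟮y₀⟯ u).map φ) = 0 := by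
    rw [aeval_def, eval₂_map]
    have h1 : (algebraMap ↥K⟮y⟯ (laurentBaseChange K F_ℚ)).comp φ =
        (mw_d2_bc (K := K) F_ℚ).comp (algebraMap ↥K₀⟮y₀⟯ (laurentBaseChange K₀ F_ℚ)) := rfl
    rw [h1, ← hom_eval₂, ← aeval_def, minpoly.aeval, map_zero]
  have hint : IsIntegral ↥K⟮y⟯ (mw_d2_bc (K := K) F_ℚ u) := ⟨_, hmonic, hroot⟩
  -- `K(y)(bc u)` is everything
  have htop : (↥K⟮y⟯)⟮mw_d2_bc (K := K) F_ℚ u⟯ = ⊤ := by
    apply mw_d2t_eq_top_of_bc_mem (K₀ := K₀) F_ℚ y
    intro e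
    have he : e ∈ (↥K₀⟮y₀⟯)⟮u⟯ := by rw [hu]; exact IntermediateField.mem_top
    induction he using IntermediateField.adjoin_induction with
    | mem x hx =>
        rw [Set.mem_singleton_iff] at hx
        rw [hx]
        exact IntermediateField.mem_adjoin_simple_self _ _
    | algebraMap r =>
        rw [← mw_d2t_bcAdj_coe]
        exact IntermediateField.algebraMap_mem _ _
    | add a b _ _ ha hb => rw [map_add]; exact add_mem ha hb
    | inv a _ ha => rw [map_inv₀]; exact inv_mem ha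
    | mul a b _ _ ha hb => rw [map_mul]; exact mul_mem ha hb
  calc Module.finrank ↥K⟮y⟯ (laurentBaseChange K F_ℚ)
      = Module.finrank ↥K⟮y⟯ ↥((↥K⟮y⟯)⟮mw_d2_bc (K := K) F_ℚ u⟯) := by
        rw [htop, IntermediateField.finrank_top']
    _ = (minpoly ↥K⟮y⟯ (mw_d2_bc (K := K) F_ℚ u)).natDegree := IntermediateField.adjoin.finrank hint
    _ ≤ ((minpoly ↥K₀⟮y₀⟯ u).map φ).natDegree :=
        natDegree_le_natDegree (minpoly.min _ _ hmonic hroot)
    _ = (minpoly ↥K₀⟮y₀⟯ u).natDegree := natDegree_map φ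
    _ = Module.finrank ↥K₀⟮y₀⟯ ↥((↥K₀⟮y₀⟯)⟮u⟯) := (IntermediateField.adjoin.finrank huint).symm
    _ = Module.finrank ↥K₀⟮y₀⟯ (laurentBaseChange K₀ F_ℚ) := by
        rw [hu, IntermediateField.finrank_top']

end bc

end Fermat.Agent.MW
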