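/-
Project MW (S17), cell [DIV2], leaf [TRANS] (helper23), part 1: VALUES AT PLACES.  Prefix `mw_d2t_`.

`K` algebraically closed, `F / K` a function field (`rt_IsSepGen K x`).  For a place `P` and a
function `f` regular at `P`, the value `f(P) ∈ K` is the constant `c` with `f - c ∈ 𝔪_P`.

* `mw_d2t_IsVal P f c`  : `f - c ∈ 𝔪_P`;
* `mw_d2t_isVal_exists`, `mw_d2t_isVal_unique`, `mw_d2t_isVal_add/_mul/_const/_mem`;
* `mw_d2t_isVal_smul`   : equivariance under a semilinear automorphism `g`:
                           `(g • f)(g • P) = g (f(P))`;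
* `mw_d2t_val P f`      : the value (junk value `0` at a pole) with `mw_d2t_val_spec/_eq`.
-/
import Mathlib
import Fermat.Agent.S24.Hurwitz.Places
import Fermat.Agent.JT3.Riemann.Approx
import Fermat.Prelude.Def_AlgebraicCurve_BaseChangeGalois

set_option autoImplicit false
set_option linter.unusedSectionVars false

noncomputable section

namespace Fermat.Agent.MW

open AlgebraicCurve Fermat.Agent.JT3 Fermat.Agent.S24
open scoped Pointwise

universe u v

variable {K : Type u} {F : Type v} [Field K] [Field F] [Algebra K F]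

/-- `c` is the value of `f` at `P`: `f - c ∈ 𝔪_P`. -/
def mw_d2t_IsVal (P : Place K F) (f : F) (c : K) : Prop :=
  f - algebraMap K F c ∈ P.toValuationSubring.nonunits

theorem mw_d2t_mem_nonunits_iff (P : Place K F) (f : F) :
    f ∈ P.toValuationSubring.nonunits ↔ f = 0 ∨ 0 < P.ord f := by
  rcases eq_or_ne f 0 with rfl | hf
  · simp only [true_or, iff_true]
    exact (ValuationSubring.mem_nonunits_iff_or _).2 (Or.inl rfl)
  · rw [ValuationSubring.mem_nonunits_iff_or, hw_ord_pos_iff P hf]

theorem mw_d2t_nonunits_mem (P : Place K F) {f : F} (hf : f ∈ P.toValuationSubring.nonunits) :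
    f ∈ P.toValuationSubring :=
  ValuationSubring.nonunits_subset (A := P.toValuationSubring) hf

theorem mw_d2t_nonunits_add (P : Place K F) {f g : F}
    (hf : f ∈ P.toValuationSubring.nonunits) (hg : g ∈ P.toValuationSubring.nonunits) :
    f + g ∈ P.toValuationSubring.nonunits := by
  obtain ⟨hf', hfm⟩ := ValuationSubring.mem_nonunits_iff_exists_mem_maximalIdeal.1 hf
  obtain ⟨hg', hgm⟩ := ValuationSubring.mem_nonunits_iff_exists_mem_maximalIdeal.1 hg
  exact ValuationSubring.mem_nonunits_iff_exists_mem_maximalIdeal.2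
    ⟨add_mem hf' hg', (IsLocalRing.maximalIdeal _).add_mem hfm hgm⟩

theorem mw_d2t_nonunits_mul (P : Place K F) {f g : F}
    (hf : f ∈ P.toValuationSubring.nonunits) (hg : g ∈ P.toValuationSubring) :
    f * g ∈ P.toValuationSubring.nonunits := by
  obtain ⟨hf', hfm⟩ := ValuationSubring.mem_nonunits_iff_exists_mem_maximalIdeal.1 hf
  exact ValuationSubring.mem_nonunits_iff_exists_mem_maximalIdeal.2
    ⟨mul_mem hf' hg, (IsLocalRing.maximalIdeal _).mul_mem_right ⟨g, hg⟩ hfm⟩

theorem mw_d2t_nonunits_neg (P : Place K F) {f : F}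
    (hf : f ∈ P.toValuationSubring.nonunits) : -f ∈ P.toValuationSubring.nonunits := by
  have := mw_d2t_nonunits_mul P hf (neg_mem (one_mem P.toValuationSubring))
  simpa using this

theorem mw_d2t_const_not_nonunit (P : Place K F) {c : K} (hc : c ≠ 0) :
    algebraMap K F c ∉ P.toValuationSubring.nonunits := by
  rw [mw_d2t_mem_nonunits_iff, hw_ord_algebraMap]
  simp [hc]

theorem mw_d2t_isVal_mem {P : Place K F} {f : F} {c : K} (h : mw_d2t_IsVal P f c) :
    f ∈ P.toValuationSubring := by
  have h1 := mw_d2t_nonunits_mem P h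
  have h2 := add_mem h1 (P.algebraMap_mem' c)
  simpa using h2

theorem mw_d2t_isVal_unique {P : Place K F} {f : F} {c c' : K} (h : mw_d2t_IsVal P f c)
    (h' : mw_d2t_IsVal P f c') : c = c' := by
  by_contra hne
  have h1 : algebraMap K F (c' - c) ∈ P.toValuationSubring.nonunits := by
    have := mw_d2t_nonunits_add P h (mw_d2t_nonunits_neg P h')
    have e : f - algebraMap K F c + -(f - algebraMap K F c') = algebraMap K F (c' - c) := by
      rw [map_sub]; ring
    rwa [e] at this
  exact mw_d2t_const_not_nonunit P (sub_ne_zero.mpr (Ne.symm hne)) h1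

theorem mw_d2t_isVal_const (P : Place K F) (c : K) : mw_d2t_IsVal P (algebraMap K F c) c := by
  rw [mw_d2t_IsVal, sub_self, mw_d2t_mem_nonunits_iff]
  exact Or.inl rfl

theorem mw_d2t_isVal_add {P : Place K F} {f g : F} {c d : K} (hf : mw_d2t_IsVal P f c)
    (hg : mw_d2t_IsVal P g d) : mw_d2t_IsVal P (f + g) (c + d) := by
  have := mw_d2t_nonunits_add P hf hg
  have e : f - algebraMap K F c + (g - algebraMap K F d) = f + g - algebraMap K F (c + d) := by
    rw [map_add]; ring
  rwa [e] at this

theorem mw_d2t_isVal_mul {P : Place K F} {f g : F} {c d : K} (hf : mw_d2t_IsVal P f c)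
    (hg : mw_d2t_IsVal P g d) : mw_d2t_IsVal P (f * g) (c * d) := by
  have h1 := mw_d2t_nonunits_mul P hf (mw_d2t_isVal_mem hg)
  have h2 := mw_d2t_nonunits_mul P hg (P.algebraMap_mem' c)
  have := mw_d2t_nonunits_add P h1 h2
  have e : (f - algebraMap K F c) * g + (g - algebraMap K F d) * algebraMap K F c
      = f * g - algebraMap K F (c * d) := by
    rw [map_mul]; ring
  rwa [e] at this

theorem mw_d2t_isVal_zero_iff {P : Place K F} {f : F} :
    mw_d2t_IsVal P f 0 ↔ f ∈ P.toValuationSubring.nonunits := by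
  rw [mw_d2t_IsVal, map_zero, sub_zero]

/-- a function which is a unit at `P` has a nonzero value. -/
theorem mw_d2t_isVal_ne_zero {P : Place K F} {f : F} {c : K} (hf : f ≠ 0) (h0 : P.ord f = 0)
    (h : mw_d2t_IsVal P f c) : c ≠ 0 := by
  rintro rfl
  rw [mw_d2t_isVal_zero_iff, mw_d2t_mem_nonunits_iff] at h
  rcases h with h | h
  · exact hf h
  · omega

/-- the zeros of `f - c`. -/
theorem mw_d2t_isVal_iff_ord_pos {P : Place K F} {f : F} {c : K}
    (hne : f - algebraMap K F c ≠ 0) :
    mw_d2t_IsVal P f c ↔ 0 < P.ord (f - algebraMap K F c) := by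
  rw [mw_d2t_IsVal, mw_d2t_mem_nonunits_iff]
  simp [hne]

section smul

variable (g : SemilinearAut K F)

theorem mw_d2t_smul_mem_nonunits {P : Place K F} {f : F}
    (h : f ∈ P.toValuationSubring.nonunits) : g • f ∈ (g • P).toValuationSubring.nonunits := by
  rw [mw_d2t_mem_nonunits_iff] at h ⊢
  rcases h with rfl | h
  · exact Or.inl (smul_zero g)
  · right
    rwa [SemilinearAut.ord_smul]

/-- **equivariance of values**: `(g • f)(g • P) = g (f(P))`. -/
theorem mw_d2t_isVal_smul {P : Place K F} {f : F} {c : K} (h : mw_d2t_IsVal P f c) :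
    mw_d2t_IsVal (g • P) (g • f) (SemilinearAut.baseAut g c) := by
  have := mw_d2t_smul_mem_nonunits g h
  rwa [smul_sub, SemilinearAut.smul_algebraMap] at this

end smul

section exists_

variable [IsAlgClosed K] {x : F} (hx : rt_IsSepGen K x)

include hx in
/-- every function regular at `P` has a value (`K` algebraically closed). -/
theorem mw_d2t_isVal_exists (P : Place K F) {f : F} (hf : f ∈ P.toValuationSubring) :
    ∃ c : K, mw_d2t_IsVal P f c := by
  have := hx.isAlgebraic
  obtain ⟨c, hc | hc⟩ := hw_exists_const x P hf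
  · exact ⟨c, by rw [hc]; exact mw_d2t_isVal_const P c⟩
  · exact ⟨c, (mw_d2t_mem_nonunits_iff P _).2 (Or.inr hc)⟩

end exists_

/-- the value of `f` at `P` (`0` if there is none). -/
def mw_d2t_val (P : Place K F) (f : F) : K :=
  open scoped Classical in
  if h : ∃ c : K, mw_d2t_IsVal P f c then h.choose else 0

theorem mw_d2t_val_eq {P : Place K F} {f : F} {c : K} (h : mw_d2t_IsVal P f c) :
    mw_d2t_val P f = c := by
  have hex : ∃ c : K, mw_d2t_IsVal P f c := ⟨c, h⟩
  rw [mw_d2t_val, dif_pos hex]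
  exact mw_d2t_isVal_unique hex.choose_spec h

theorem mw_d2t_val_spec [IsAlgClosed K] {x : F} (hx : rt_IsSepGen K x) (P : Place K F) {f : F}
    (hf : f ∈ P.toValuationSubring) : mw_d2t_IsVal P f (mw_d2t_val P f) := by
  obtain ⟨c, hc⟩ := mw_d2t_isVal_exists hx P hf
  rwa [mw_d2t_val_eq hc]

end Fermat.Agent.MW
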