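/-
Project MW (S17), cell [DIV2], leaf [TRANS] (helper23), part 4: EVALUATION OF `F_{K₀}` AT A PLACE
OF `F_K`.  Prefix `mw_d2t_`.

`K₀ ⊆ K`, `K` algebraically closed, `F₀ = laurentBaseChange K₀ F_ℚ`, `F = laurentBaseChange K F_ℚ`,
`bc : F₀ → F`.  A place `Q` of `F / K` at which every `bc u` has a value ("`Q` is generic over
`K₀`") defines the evaluation `ε_Q : F₀ →+* K`.

* `mw_d2t_HasVals Q`     : every `bc u` has a value at `Q`;
* `mw_d2t_eps Q h`       : the evaluation homomorphism; `mw_d2t_eps_spec`, `_algebraMap`, `_of_isVal`;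
* `mw_d2t_smul_bc`       : an automorphism `σ` of `K` fixing `K₀` fixes `bc u`;
* `mw_d2t_hasVals_smul`, `mw_d2t_eps_smul` : `ε_{σ Q} = σ ∘ ε_Q`.
-/
import Mathlib
import Fermat.Agent.MW.Div2.Trans.Value
import Fermat.Agent.MW.Div2.Defs

set_option autoImplicit false
set_option linter.unusedSectionVars false

noncomputable section

namespace Fermat.Agent.MW

open AlgebraicCurve ModularCurve Fermat.Agent.JT3 Fermat.Agent.S24

variable {K₀ K : Type} [Field K₀] [Field K] [Algebra K₀ K] [Algebra ℚ K₀] [Algebra ℚ K]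
  (F_ℚ : IntermediateField ℚ (LaurentSeries ℚ))

/-- every `bc u`, `u ∈ F_{K₀}`, has a value at `Q`. -/
def mw_d2t_HasVals (Q : Place K (laurentBaseChange K F_ℚ)) : Prop :=
  ∀ u : laurentBaseChange K₀ F_ℚ, ∃ c : K, mw_d2t_IsVal Q (mw_d2_bc (K := K) F_ℚ u) c

variable {F_ℚ}

/-- **the evaluation homomorphism** `ε_Q : F_{K₀} → K`. -/
def mw_d2t_eps (Q : Place K (laurentBaseChange K F_ℚ)) (h : mw_d2t_HasVals (K₀ := K₀) F_ℚ Q) :
    laurentBaseChange K₀ F_ℚ →+* K where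
  toFun u := mw_d2t_val Q (mw_d2_bc (K := K) F_ℚ u)
  map_one' := by
    rw [map_one]
    have := mw_d2t_isVal_const Q (1 : K)
    rw [map_one] at this
    exact mw_d2t_val_eq this
  map_mul' u w := by
    obtain ⟨c, hc⟩ := h u
    obtain ⟨d, hd⟩ := h w
    rw [map_mul, mw_d2t_val_eq hc, mw_d2t_val_eq hd, mw_d2t_val_eq (mw_d2t_isVal_mul hc hd)]
  map_zero' := by
    rw [map_zero]
    have := mw_d2t_isVal_const Q (0 : K)
    rw [map_zero] at this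
    exact mw_d2t_val_eq this
  map_add' u w := by
    obtain ⟨c, hc⟩ := h u
    obtain ⟨d, hd⟩ := h w
    rw [map_add, mw_d2t_val_eq hc, mw_d2t_val_eq hd, mw_d2t_val_eq (mw_d2t_isVal_add hc hd)]

theorem mw_d2t_eps_spec (Q : Place K (laurentBaseChange K F_ℚ))
    (h : mw_d2t_HasVals (K₀ := K₀) F_ℚ Q) (u : laurentBaseChange K₀ F_ℚ) :
    mw_d2t_IsVal Q (mw_d2_bc (K := K) F_ℚ u) (mw_d2t_eps Q h u) := by
  obtain ⟨c, hc⟩ := h u
  have : mw_d2t_eps Q h u = c := mw_d2t_val_eq hc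
  rwa [this]

theorem mw_d2t_eps_of_isVal (Q : Place K (laurentBaseChange K F_ℚ))
    (h : mw_d2t_HasVals (K₀ := K₀) F_ℚ Q) {u : laurentBaseChange K₀ F_ℚ} {c : K}
    (hc : mw_d2t_IsVal Q (mw_d2_bc (K := K) F_ℚ u) c) : mw_d2t_eps Q h u = c :=
  mw_d2t_val_eq hc

theorem mw_d2t_eps_algebraMap (Q : Place K (laurentBaseChange K F_ℚ))
    (h : mw_d2t_HasVals (K₀ := K₀) F_ℚ Q) (c : K₀) :
    mw_d2t_eps Q h (algebraMap K₀ (laurentBaseChange K₀ F_ℚ) c) = algebraMap K₀ K c := by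
  apply mw_d2t_eps_of_isVal
  rw [mw_d2_bc_algebraMap]
  exact mw_d2t_isVal_const Q _

/-- two generic places with the same evaluation homomorphism have the same values. -/
theorem mw_d2t_eps_congr {Q Q' : Place K (laurentBaseChange K F_ℚ)}
    {h : mw_d2t_HasVals (K₀ := K₀) F_ℚ Q} {h' : mw_d2t_HasVals (K₀ := K₀) F_ℚ Q'}
    (hQ : Q = Q') : mw_d2t_eps Q h = mw_d2t_eps Q' h' := by
  subst hQ; rfl

/-! ### the action of the automorphisms of `K` fixing `K₀` -/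

variable (F_ℚ) in
/-- an automorphism of `K` fixing `K₀` fixes `bc u`. -/
theorem mw_d2t_smul_bc (σ : K ≃ₐ[ℚ] K) (hσ : ∀ c : K₀, σ (algebraMap K₀ K c) = algebraMap K₀ K c)
    (u : laurentBaseChange K₀ F_ℚ) :
    arithmeticGalois F_ℚ σ • mw_d2_bc (K := K) F_ℚ u = mw_d2_bc (K := K) F_ℚ u := by
  apply Subtype.ext
  rw [coe_arithmeticGalois_smul, mw_d2_bc_coe, coeffMap_coeffMap]
  exact coeffMap_congr (RingHom.ext fun c => hσ c) _

theorem mw_d2t_isVal_smul_bc (σ : K ≃ₐ[ℚ] K)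
    (hσ : ∀ c : K₀, σ (algebraMap K₀ K c) = algebraMap K₀ K c)
    {Q : Place K (laurentBaseChange K F_ℚ)} {u : laurentBaseChange K₀ F_ℚ} {c : K}
    (hc : mw_d2t_IsVal Q (mw_d2_bc (K := K) F_ℚ u) c) :
    mw_d2t_IsVal (arithmeticGalois F_ℚ σ • Q) (mw_d2_bc (K := K) F_ℚ u) (σ c) := by
  have := mw_d2t_isVal_smul (arithmeticGalois F_ℚ σ) hc
  rwa [mw_d2t_smul_bc F_ℚ σ hσ] at this

theorem mw_d2t_hasVals_smul (σ : K ≃ₐ[ℚ] K)
    (hσ : ∀ c : K₀, σ (algebraMap K₀ K c) = algebraMap K₀ K c)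
    {Q : Place K (laurentBaseChange K F_ℚ)} (h : mw_d2t_HasVals (K₀ := K₀) F_ℚ Q) :
    mw_d2t_HasVals (K₀ := K₀) F_ℚ (arithmeticGalois F_ℚ σ • Q) := fun u => by
  obtain ⟨c, hc⟩ := h u
  exact ⟨σ c, mw_d2t_isVal_smul_bc σ hσ hc⟩

/-- **equivariance**: `ε_{σ Q} = σ ∘ ε_Q`. -/
theorem mw_d2t_eps_smul (σ : K ≃ₐ[ℚ] K)
    (hσ : ∀ c : K₀, σ (algebraMap K₀ K c) = algebraMap K₀ K c)
    {Q : Place K (laurentBaseChange K F_ℚ)} (h : mw_d2t_HasVals (K₀ := K₀) F_ℚ Q)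
    (h' : mw_d2t_HasVals (K₀ := K₀) F_ℚ (arithmeticGalois F_ℚ σ • Q))
    (u : laurentBaseChange K₀ F_ℚ) :
    mw_d2t_eps (arithmeticGalois F_ℚ σ • Q) h' u = σ (mw_d2t_eps Q h u) :=
  mw_d2t_eps_of_isVal _ h' (mw_d2t_isVal_smul_bc σ hσ (mw_d2t_eps_spec Q h u))

/-- the value of a function with rational coefficients at `σ Q`. -/
theorem mw_d2t_isVal_smul_bcQ (σ : K ≃ₐ[ℚ] K) (x₀ : F_ℚ)
    {Q : Place K (laurentBaseChange K F_ℚ)} {c : K}
    (hc : mw_d2t_IsVal Q (mw_d2_bcQ K F_ℚ x₀) c) :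
    mw_d2t_IsVal (arithmeticGalois F_ℚ σ • Q) (mw_d2_bcQ K F_ℚ x₀) (σ c) := by
  have := mw_d2t_isVal_smul (arithmeticGalois F_ℚ σ) hc
  rwa [mw_d2_act_bcQ] at this

end Fermat.Agent.MW
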