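/-
Project MW (S17), cell [DIV2], leaf [TRANS] (helper23), part 3: ABSTRACT FIELD THEORY.
Prefix `mw_d2t_`.

`k ⊆ E` a finite extension of fields of characteristic zero, `K` an algebraically closed field,
`ι : k → K` a ring homomorphism.

* `mw_d2t_conj_of_AUTr` : (from the seam [AUT-r]) two extensions `ε, ε' : E → K` of `ι` are conjugate
  under an automorphism of `K` fixing `ι k` pointwise (primitive element + conjugacy of the roots of
  an irreducible polynomial over `ι k`);
* `mw_d2t_injective_of_card` : a family `Ψ : Pts → Hom_ι(E, K)` which hits every extension of `ι`, with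
  `#Pts ≤ [E : k]`, is injective (there are exactly `[E : k]` extensions).
-/
import Mathlib
import Fermat.Agent.MW.Div2.Seams

set_option autoImplicit false
set_option linter.unusedSectionVars false
set_option linter.style.haveILetI false

noncomputable section

namespace Fermat.Agent.MW

open IntermediateField Polynomial

section conj

variable {K : Type} [Field K] [Algebra ℚ K]
  {k E : Type*} [Field k] [Field E] [Algebra k E] [FiniteDimensional k E] [CharZero k]

/-- the image of `ι : k → K` as an intermediate field of `K / ℚ`. -/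
def mw_d2t_range (ι : k →+* K) : IntermediateField ℚ K :=
  Subfield.toIntermediateField ι.fieldRange fun q =>
    ⟨(q : k), by rw [map_ratCast, eq_ratCast]⟩

theorem mw_d2t_mem_range (ι : k →+* K) (r : k) : ι r ∈ mw_d2t_range ι := ⟨r, rfl⟩

theorem mw_d2t_mem_range_iff (ι : k →+* K) (a : K) : a ∈ mw_d2t_range ι ↔ ∃ r, ι r = a :=
  Iff.rfl

/-- `k ≃ ι k`. -/
def mw_d2t_rangeEquiv (ι : k →+* K) : k ≃+* ↥(mw_d2t_range ι) :=
  RingEquiv.ofBijective (ι.codRestrict (mw_d2t_range ι) (mw_d2t_mem_range ι))
    ⟨fun _ _ h => ι.injective (congrArg Subtype.val h),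
     fun ⟨_, r, hr⟩ => ⟨r, Subtype.ext hr⟩⟩

theorem mw_d2t_rangeEquiv_coe (ι : k →+* K) (r : k) :
    ((mw_d2t_rangeEquiv ι r : ↥(mw_d2t_range ι)) : K) = ι r := rfl

/-- **conjugacy of the extensions of `ι`** (from [AUT-r]). -/
theorem mw_d2t_conj_of_AUTr (hAUTr : mw_d2_SeamAUTr K) (ι : k →+* K) (ε ε' : E →+* K)
    (hε : ε.comp (algebraMap k E) = ι) (hε' : ε'.comp (algebraMap k E) = ι) :
    ∃ σ : K ≃ₐ[ℚ] K, (∀ r : k, σ (ι r) = ι r) ∧ ∀ e : E, σ (ε e) = ε' e := by
  obtain ⟨u, hu⟩ := Field.exists_primitive_element k E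
  have huint : IsIntegral k u := Algebra.IsIntegral.isIntegral u
  set M := mw_d2t_range ι with hM
  set eM := mw_d2t_rangeEquiv ι with heM
  -- the irreducible polynomial over `M`
  have hirr : Irreducible ((minpoly k u).map (eM : k →+* ↥M)) := by
    have h1 := (MulEquiv.irreducible_iff (Polynomial.mapEquiv eM)).2 (minpoly.irreducible huint)
    exact h1
  have hcomp : (algebraMap ↥M K).comp (eM : k →+* ↥M) = ι := RingHom.ext fun r => rfl
  have hroot : ∀ η : E →+* K, η.comp (algebraMap k E) = ι →
      aeval (η u) ((minpoly k u).map (eM : k →+* ↥M)) = 0 := by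
    intro η hη
    rw [aeval_def, eval₂_map, hcomp, ← hη, ← hom_eval₂, ← aeval_def, minpoly.aeval, map_zero]
  obtain ⟨σ, hσM, hσ⟩ := hAUTr M _ hirr (ε u) (ε' u) (hroot ε hε) (hroot ε' hε')
  rw [IntermediateField.mem_fixingSubgroup_iff] at hσM
  have hfix : ∀ r : k, σ (ι r) = ι r := fun r => hσM _ (mw_d2t_mem_range ι r)
  refine ⟨σ, hfix, ?_⟩
  -- two `k`-algebra homomorphisms agreeing on the primitive element
  letI : Algebra k K := ι.toAlgebra
  let φ₁ : E →ₐ[k] K :=
    { ((σ : K →+* K).comp ε) with
      commutes' := fun r => by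
        show σ (ε (algebraMap k E r)) = ι r
        have : ε (algebraMap k E r) = ι r := congrArg (fun f : k →+* K => f r) hε
        rw [this, hfix] }
  let φ₂ : E →ₐ[k] K :=
    { ε' with
      commutes' := fun r => congrArg (fun f : k →+* K => f r) hε' }
  have hadj : Algebra.adjoin k ({u} : Set E) = ⊤ := by
    rw [← IntermediateField.adjoin_simple_toSubalgebra_of_isAlgebraic huint.isAlgebraic, hu,
      IntermediateField.top_toSubalgebra]
  have h12 : φ₁ = φ₂ := by
    apply AlgHom.ext_of_adjoin_eq_top hadj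
    intro x hx
    rw [Set.mem_singleton_iff] at hx
    rw [hx]
    exact hσ
  intro e
  exact congrArg (fun f : E →ₐ[k] K => f e) h12

end conj

section count

variable {k E K : Type*} [Field k] [Field E] [Field K] [Algebra k E] [FiniteDimensional k E]
  [CharZero k] [IsAlgClosed K]

/-- **counting the extensions of `ι`**: a family hitting all of them, of cardinality at most
`[E : k]`, is injective. -/
theorem mw_d2t_injective_of_card (ι : k →+* K) {Pts : Type*} [Finite Pts] (Ψ : Pts → (E →+* K))
    (hΨ : ∀ Q, (Ψ Q).comp (algebraMap k E) = ι)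
    (hsurj : ∀ ε : E →+* K, ε.comp (algebraMap k E) = ι → ∃ Q, Ψ Q = ε)
    (hcard : Nat.card Pts ≤ Module.finrank k E) : Function.Injective Ψ := by
  classical
  letI : Algebra k K := ι.toAlgebra
  let Ψ' : Pts → (E →ₐ[k] K) := fun Q =>
    { Ψ Q with
      commutes' := fun r => congrArg (fun f : k →+* K => f r) (hΨ Q) }
  have hsurj' : Function.Surjective Ψ' := by
    intro φ
    obtain ⟨Q, hQ⟩ := hsurj (φ : E →+* K) (RingHom.ext fun r => φ.commutes r)
    refine ⟨Q, AlgHom.ext fun e => ?_⟩
    exact congrArg (fun f : E →+* K => f e) hQ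
  have hc : Nat.card Pts ≤ Nat.card (E →ₐ[k] K) := by
    have h1 : Nat.card (E →ₐ[k] K) = Module.finrank k E := by
      rw [Nat.card_eq_fintype_card, AlgHom.card]
    rw [h1]
    exact hcard
  have hbij := hsurj'.bijective_of_nat_card_le hc
  intro Q Q' h
  apply hbij.1
  exact AlgHom.ext fun e => congrArg (fun f : E →+* K => f e) h

end count

end Fermat.Agent.MW
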